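import Fermat.Agent.S29.H402.DictFrom
import Fermat.Agent.S29.H282.K2
import Fermat.Agent.S29.H882.MeroPrim
import Fermat.Prelude.Def_ModularCurve_ArithmeticGalois

/-!
# S29 / M4b / K3-FIN (helper402) — finiteness of the `Aut(ℂ)`-orbit of a Kummer class

`finStatement` : for a twisted function `U` of a parabolic character `c` of `Γ₀(N)` there is a
finite set `T ⊆ ℂ((q))` such that for every field automorphism `σ` of `ℂ`
`σ (q-exp (U ^ p)) = t · u ^ p` with `t ∈ T`, `u ∈ F_ℂ`, `u ≠ 0`.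
This is sub-piece `K3-FIN` (`FinStatement N p`) of helper42's K3 sub-skeleton
(`origin/helper42:Fermat/Agent/S29/M4b/K3/Defs.lean`), for all ring automorphisms of `ℂ`.

Steps (`coord/S29-K3.md`): F1 = DICT-hard over `ℂ` (`dvd_ord_of_isTwisted`), F2 = transport of
places by the Prelude's `arithmeticGalois` (`dvd_ord_coeffMap`), F4+F5 = DFROM
(`exists_isTwisted_of_dvd_ord`), F6 = finiteness of `Hom(Γ₀(N), ℤ/p)` (`finite_addHom_G0`),
F7 = same character ⟹ same class (`exists_pow_of_same_char`), F8 = assembly.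
-/

set_option autoImplicit false

noncomputable section

open ModularCurve HahnSeries UpperHalfPlane CongruenceSubgroup AlgebraicCurve
open scoped MatrixGroups Manifold
open Fermat.Agent.S24 Fermat.Agent.S24.H997 Fermat.Agent.S24.H648 Fermat.Agent.S24.H708
open Fermat.Agent.S24.H624
open Fermat.Agent.S29 Fermat.Agent.S29.M4b Fermat.Agent.S29.M4b.H822

namespace Fermat.Agent.S29.H402

set_option linter.unusedSectionVars false

variable {N : ℕ} [NeZero N] {p : ℕ} [NeZero p]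

/-! ### F1: DICT-hard over `ℂ` -/

/-- the `q`-expansion of `U ^ p` as an element of `F_ℂ` -/
def qexpPowFC {c : G0 N → ZMod p} {U : ℍ → ℂ} (hU : IsTwisted N p c U) : FFK ℂ N :=
  ⟨qexpFun 1 (fun τ => U τ ^ p), Fermat.Agent.S29.H882.qexpFun_mem_FC hU.pow_mem⟩

theorem coe_qexpPowFC {c : G0 N → ZMod p} {U : ℍ → ℂ} (hU : IsTwisted N p c U) :
    ((qexpPowFC hU : FFK ℂ N) : LaurentSeries ℂ) = qexpFun 1 (fun τ => U τ ^ p) := rfl

theorem qexpPowFC_ne_zero {c : G0 N → ZMod p} {U : ℍ → ℂ} (hU : IsTwisted N p c U) :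
    qexpPowFC hU ≠ 0 := by
  intro h0
  have h1 : qexpFun 1 (fun τ => U τ ^ p) = 0 := congrArg Subtype.val h0
  have hq := Fermat.Agent.S29.H882.hasQExp_of_mem_goodRing hU.pow_mem
  have h2 : (fun τ => U τ ^ p) = 0 := hq.eq_zero_iff.mp h1
  obtain ⟨τ, hτ⟩ := hU.ne_zero
  exact pow_ne_zero p hτ (congrFun h2 τ)

/-- **F1 (DICT-hard over `ℂ`).** -/
theorem dvd_ord_of_isTwisted {c : G0 N → ZMod p} (hc : IsParHom c) {U : ℍ → ℂ}
    (hU : IsTwisted N p c U) (w : Place ℂ (FFK ℂ N)) : (p : ℤ) ∣ w.ord (qexpPowFC hU) := by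
  have hq : HasQExp 1 (fun τ => U τ ^ p) (qexpFun 1 (fun τ => U τ ^ p)) :=
    Fermat.Agent.S29.H882.hasQExp_of_mem_goodRing hU.pow_mem
  have hinf : InfExp N (fun τ => U τ ^ p)
      (qExpand ℂ N (coeffMap (RingHom.id ℂ) (qexpFun 1 (fun τ => U τ ^ p)))) := by
    rw [coeffMap_id]
    exact Fermat.Agent.S29.H282.infExp_level_of_hasQExp hq
  have hav : Fermat.Agent.S29.H282.IsAvatar (K := ℂ) (RingHom.id ℂ) (analyticCore N).toHolBase
      (qexpPowFC hU) (Fermat.Agent.S29.H282.twistedHol hc hU ^ p) :=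
    (expInf_spec (holToExp N (Fermat.Agent.S29.H282.twistedHol hc hU ^ p))).unique hinf
  exact Fermat.Agent.S29.H282.dvd_ord_of_isAvatar_pow (K := ℂ) (ι := RingHom.id ℂ)
    (A := analyticCore N) (Fermat.Agent.S29.H282.isUnramified_twistedHol hc hU) hav w

/-! ### F2: transport of places by automorphisms of `ℂ` -/

/-- a ring automorphism of `ℂ` as a `ℚ`-algebra automorphism -/
def ratAlgEquivC (σ : ℂ ≃+* ℂ) : ℂ ≃ₐ[ℚ] ℂ :=
  AlgEquiv.ofRingEquiv (f := σ) (fun q => by simp)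

/-- the semilinear automorphism of `F_ℂ` induced by an automorphism of `ℂ` -/
def autFC (N : ℕ) (σ : ℂ ≃+* ℂ) : SemilinearAut ℂ (FFK ℂ N) :=
  arithmeticGalois (modularFunctionFieldFull N) (ratAlgEquivC σ)

omit [NeZero N] in
theorem coe_autFC_smul (σ : ℂ ≃+* ℂ) (f : FFK ℂ N) :
    ((autFC N σ • f : FFK ℂ N) : LaurentSeries ℂ)
      = coeffMap (σ : ℂ →+* ℂ) (f : LaurentSeries ℂ) := rfl

omit [NeZero N] in
/-- **F2.** divisibility of all orders is preserved by automorphisms of `ℂ` -/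
theorem dvd_ord_autFC_smul (σ : ℂ ≃+* ℂ) {f : FFK ℂ N}
    (h : ∀ w : Place ℂ (FFK ℂ N), (p : ℤ) ∣ w.ord f) (w : Place ℂ (FFK ℂ N)) :
    (p : ℤ) ∣ w.ord (autFC N σ • f) := by
  have h1 := SemilinearAut.ord_smul (autFC N σ) ((autFC N σ)⁻¹ • w) f
  rw [smul_inv_smul] at h1
  rw [h1]
  exact h _

/-! ### F6: finitely many characters -/

theorem groupFG_G0 (N : ℕ) [NeZero N] : Group.FG (G0 N) := by
  haveI : Group.FG SL(2, ℤ) :=
    Group.fg_iff.mpr ⟨{ModularGroup.S, ModularGroup.T}, SpecialLinearGroup.SL2Z_generators,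
      Set.toFinite _⟩
  show Group.FG (Gamma0 N)
  infer_instance

theorem finite_addHom_of_fg (H : Type*) [Group H] [Group.FG H] (M : Type*) [AddCommGroup M]
    [Finite M] : Finite (Additive H →+ M) := by
  obtain ⟨s, hs⟩ := Group.fg_def.mp (inferInstance : Group.FG H)
  let L : (Additive H →+ M) → (s → M) := fun φ x => φ (Additive.ofMul (x : H))
  have hL : Function.Injective L := by
    intro φ ψ hφψ
    have h0 : ∀ x ∈ s, φ (Additive.ofMul x) = ψ (Additive.ofMul x) :=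
      fun x hx => congrFun hφψ ⟨x, hx⟩
    have key : ∀ h : H, φ (Additive.ofMul h) = ψ (Additive.ofMul h) := by
      intro h
      have hg : h ∈ Subgroup.closure (s : Set H) := by rw [hs]; trivial
      induction hg using Subgroup.closure_induction with
      | mem x hx => exact h0 x hx
      | one => rw [ofMul_one, map_zero, map_zero]
      | mul x y _ _ hx hy => rw [ofMul_mul, map_add, map_add, hx, hy]
      | inv x _ hx => rw [ofMul_inv, map_neg, map_neg, hx]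
    exact AddMonoidHom.ext fun g => key (Additive.toMul g)
  exact Finite.of_injective L hL

theorem finite_addHom_G0 (N : ℕ) [NeZero N] (p : ℕ) [NeZero p] :
    Finite (Additive (G0 N) →+ ZMod p) := by
  haveI := groupFG_G0 N
  exact finite_addHom_of_fg (G0 N) (ZMod p)

/-! ### F7: same character ⟹ same class -/

omit [NeZero N] in
theorem mem_goodRing_of_pow_mem {A : ℍ → ℂ} (hA : MDifferentiable 𝓘(ℂ) 𝓘(ℂ) A)
    (hinv : ∀ γ ∈ Gamma0 N, ∀ τ : ℍ, A (γ • τ) = A τ)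
    (hpow : (fun τ => A τ ^ p) ∈ goodRing N) : A ∈ goodRing N :=
  ⟨hA, hinv, fun g => Fermat.Agent.S29.H282.expGrowth_of_pow (NeZero.ne p) (hpow.2.2 g)⟩

/-- **F7.** two twisted functions of the same character have the same Kummer class. -/
theorem exists_pow_of_same_char {c : G0 N → ZMod p} {V W : ℍ → ℂ} (hV : IsTwisted N p c V)
    (hW : IsTwisted N p c W) :
    ∃ u : FFK ℂ N, u ≠ 0 ∧
      qexpFun 1 (fun τ => V τ ^ p) = qexpFun 1 (fun τ => W τ ^ p) * (u : LaurentSeries ℂ) ^ p := by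
  have hp : p ≠ 0 := NeZero.ne p
  have hp1 : 1 ≤ p := Nat.one_le_iff_ne_zero.mpr hp
  set A : ℍ → ℂ := V * W ^ (p - 1) with hA
  have hAm : MDifferentiable 𝓘(ℂ) 𝓘(ℂ) A := hV.mdiff.mul (hW.mdiff.pow _)
  have hApow : (fun τ => A τ ^ p) = (fun τ => V τ ^ p) * (fun τ => W τ ^ p) ^ (p - 1) := by
    funext τ
    simp only [hA, Pi.mul_apply, Pi.pow_apply]
    ring
  have hAinv : ∀ γ ∈ Gamma0 N, ∀ τ : ℍ, A (γ • τ) = A τ := by
    intro γ hγ τ
    have h1 := hV.hasChar ⟨γ, hγ⟩ τ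
    have h2 := hW.hasChar ⟨γ, hγ⟩ τ
    simp only [hA, Pi.mul_apply, Pi.pow_apply]
    rw [h1, h2, mul_pow]
    have h3 : zetaP p ^ (c ⟨γ, hγ⟩).val * (zetaP p ^ (c ⟨γ, hγ⟩).val) ^ (p - 1) = 1 := by
      rw [← pow_succ', Nat.sub_add_cancel hp1, ← pow_mul, mul_comm, pow_mul, zetaP_pow_self,
        one_pow]
    calc zetaP p ^ (c ⟨γ, hγ⟩).val * V τ * ((zetaP p ^ (c ⟨γ, hγ⟩).val) ^ (p - 1) * W τ ^ (p - 1))
        = (zetaP p ^ (c ⟨γ, hγ⟩).val * (zetaP p ^ (c ⟨γ, hγ⟩).val) ^ (p - 1))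
            * (V τ * W τ ^ (p - 1)) := by ring
      _ = V τ * W τ ^ (p - 1) := by rw [h3, one_mul]
  have hApowgood : (fun τ => A τ ^ p) ∈ goodRing N := by
    rw [hApow]
    exact (goodRing N).mul_mem hV.pow_mem ((goodRing N).pow_mem hW.pow_mem _)
  have hAgood : A ∈ goodRing N := mem_goodRing_of_pow_mem hAm hAinv hApowgood
  have hqA := Fermat.Agent.S29.H882.hasQExp_of_mem_goodRing hAgood
  have hqV := Fermat.Agent.S29.H882.hasQExp_of_mem_goodRing hV.pow_mem
  have hqW := Fermat.Agent.S29.H882.hasQExp_of_mem_goodRing hW.pow_mem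
  set a := qexpFun 1 A with ha
  set v := qexpFun 1 (fun τ => V τ ^ p) with hv
  set b := qexpFun 1 (fun τ => W τ ^ p) with hb
  have haF : a ∈ laurentBaseChange ℂ (modularFunctionFieldFull N) :=
    Fermat.Agent.S29.H882.qexpFun_mem_FC hAgood
  have hbF : b ∈ laurentBaseChange ℂ (modularFunctionFieldFull N) :=
    Fermat.Agent.S29.H882.qexpFun_mem_FC hW.pow_mem
  -- `a ^ p = v * b ^ (p - 1)`
  have hrel : a ^ p = v * b ^ (p - 1) := by
    have h1 : HasQExp 1 (fun τ => A τ ^ p) (a ^ p) := hqA.pow p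
    have h2 : HasQExp 1 (fun τ => A τ ^ p) (v * b ^ (p - 1)) := by
      rw [hApow]
      exact hqV.mul (hqW.pow _)
    exact h1.unique h2
  have hW0 : (fun τ => W τ ^ p) ≠ 0 := by
    obtain ⟨τ, hτ⟩ := hW.ne_zero
    intro h0
    exact pow_ne_zero p hτ (congrFun h0 τ)
  have hV0 : (fun τ => V τ ^ p) ≠ 0 := by
    obtain ⟨τ, hτ⟩ := hV.ne_zero
    intro h0
    exact pow_ne_zero p hτ (congrFun h0 τ)
  have hb0 : b ≠ 0 := fun h0 => hW0 (hqW.eq_zero_iff.mp h0)
  have hv0 : v ≠ 0 := fun h0 => hV0 (hqV.eq_zero_iff.mp h0)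
  have ha0 : a ≠ 0 := by
    intro h0
    rw [h0, zero_pow hp] at hrel
    exact mul_ne_zero hv0 (pow_ne_zero _ hb0) hrel.symm
  refine ⟨⟨a / b, div_mem haF hbF⟩, ?_, ?_⟩
  · intro h0
    have : a / b = 0 := congrArg Subtype.val h0
    exact div_ne_zero ha0 hb0 this
  · show v = b * (a / b) ^ p
    rw [div_pow, hrel]
    have : b ^ p = b * b ^ (p - 1) := by
      rw [← pow_succ', Nat.sub_add_cancel hp1]
    rw [this]
    field_simp

/-! ### F8: assembly -/

open Classical in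
/-- the chosen representative of the class of twisted functions of character `χ` -/
def repOfChar (N p : ℕ) (χ : Additive (G0 N) →+ ZMod p) : LaurentSeries ℂ :=
  if h : ∃ W : ℍ → ℂ, IsTwisted N p (fun γ => χ (Additive.ofMul γ)) W then
    qexpFun 1 (fun τ => h.choose τ ^ p) else 0

variable (N p)

/-- **K3-FIN** for all ring automorphisms of `ℂ`. -/
theorem finStatement_ringAut {c : G0 N → ZMod p} (hc : IsParHom c) {U : ℍ → ℂ}
    (hU : IsTwisted N p c U) :
    ∃ T : Set (LaurentSeries ℂ), T.Finite ∧ ∀ σ : ℂ ≃+* ℂ, ∃ t ∈ T,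
      ∃ u ∈ laurentBaseChange ℂ (modularFunctionFieldFull N), u ≠ 0 ∧
        coeffMap (σ : ℂ →+* ℂ) (qexpFun 1 (fun τ => U τ ^ p)) = t * u ^ p := by
  classical
  have hp : p ≠ 0 := NeZero.ne p
  haveI := finite_addHom_G0 N p
  refine ⟨Set.range (repOfChar N p), Set.finite_range _, fun σ => ?_⟩
  -- the conjugate function
  set f := qexpPowFC hU with hf
  have hf0 : autFC N σ • f ≠ 0 := by
    intro h0
    have h1 : (autFC N σ)⁻¹ • (autFC N σ • f) = (autFC N σ)⁻¹ • (0 : FFK ℂ N) := by rw [h0]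
    rw [inv_smul_smul, smul_zero] at h1
    exact qexpPowFC_ne_zero hU h1
  have hdiv : ∀ w : Place ℂ (FFK ℂ N), (p : ℤ) ∣ w.ord (autFC N σ • f) :=
    dvd_ord_autFC_smul σ (fun w => dvd_ord_of_isTwisted hc hU w)
  obtain ⟨s, V, c', hs, hadd, hVtw, hq⟩ := exists_isTwisted_of_dvd_ord N p hf0 hdiv
  -- the additive character
  let χ : Additive (G0 N) →+ ZMod p :=
    { toFun := fun γ => c' (Additive.toMul γ)
      map_zero' := by
        have h1 := hadd 1 1
        rw [mul_one] at h1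
        have : c' 1 = 0 := by
          have h2 : c' 1 + 0 = c' 1 + c' 1 := by rw [add_zero]; exact h1
          exact (add_left_cancel h2).symm
        exact this
      map_add' := fun γ γ' => hadd _ _ }
  have hχ : (fun γ : G0 N => χ (Additive.ofMul γ)) = c' := rfl
  have hex : ∃ W : ℍ → ℂ, IsTwisted N p (fun γ => χ (Additive.ofMul γ)) W := ⟨V, by rw [hχ]; exact hVtw⟩
  have hWtw : IsTwisted N p c' hex.choose := hex.choose_spec
  obtain ⟨u, hu0, hu⟩ := exists_pow_of_same_char hVtw hWtw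
  refine ⟨repOfChar N p χ, ⟨χ, rfl⟩, (u : LaurentSeries ℂ) / (s : LaurentSeries ℂ),
    div_mem u.2 s.2, ?_, ?_⟩
  · have hu' : (u : LaurentSeries ℂ) ≠ 0 := fun h => hu0 (Subtype.ext h)
    have hs' : (s : LaurentSeries ℂ) ≠ 0 := fun h => hs (Subtype.ext h)
    exact div_ne_zero hu' hs'
  · have hrep : repOfChar N p χ = qexpFun 1 (fun τ => hex.choose τ ^ p) := by
      unfold repOfChar
      rw [dif_pos hex]
    have hs' : (s : LaurentSeries ℂ) ≠ 0 := fun h => hs (Subtype.ext h)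
    have h1 : coeffMap (σ : ℂ →+* ℂ) (qexpFun 1 (fun τ => U τ ^ p)) * (s : LaurentSeries ℂ) ^ p
        = qexpFun 1 (fun τ => V τ ^ p) := by
      rw [hq]
      rfl
    rw [hrep, div_pow, ← mul_div_assoc, ← hu, ← h1, mul_div_assoc,
      div_self (pow_ne_zero p hs'), mul_one]

/-- **K3-FIN** in the exact shape of helper42's `K3.FinStatement N p` (unfolded). -/
theorem finStatement :
    letI : Algebra Kbar ℂ := Deg457.iotaC.toAlgebra
    ∀ (c : G0 N → ZMod p), IsParHom c → ∀ U : ℍ → ℂ, IsTwisted N p c U →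
      ∃ T : Set (LaurentSeries ℂ), T.Finite ∧ ∀ σ : ℂ ≃ₐ[Kbar] ℂ, ∃ t ∈ T,
        ∃ u ∈ laurentBaseChange ℂ (modularFunctionFieldFull N), u ≠ 0 ∧
          coeffMap (σ : ℂ →+* ℂ) (qexpFun 1 (fun τ => U τ ^ p)) = t * u ^ p := by
  letI : Algebra Kbar ℂ := Deg457.iotaC.toAlgebra
  intro c hc U hU
  obtain ⟨T, hT, h⟩ := finStatement_ringAut N p hc hU
  refine ⟨T, hT, fun σ => ?_⟩
  obtain ⟨t, ht, u, hu, hu0, heq⟩ := h σ.toRingEquiv
  exact ⟨t, ht, u, hu, hu0, heq⟩

end Fermat.Agent.S29.H402
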