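import Fermat.Agent.S29.H402.DictGood
import Fermat.Agent.S29.H751.PthRootUHP
import Fermat.Agent.S29.M4b.H822.Basic

/-!
# S29 / M4b / K3-FIN (helper402) — DFROM over `ℂ` (= F4 + F5 of `coord/S29-K3.md`)

`exists_isTwisted_of_dvd_ord` : if `f ≠ 0` in `F_ℂ = ℂ(X₀(N))` has `p ∣ ord_w f` at EVERY place
`w` of `F_ℂ / ℂ`, then there are `s ≠ 0` in `F_ℂ`, a holomorphic `V : ℍ → ℂ` and an additive
character `c : Γ₀(N) → ℤ/p` such that `V` is twisted of character `c` (M4b language `IsTwisted`)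
and `q-exp (V ^ p) = f · s ^ p`.

Proof: `f = r₁ / r₂`, `G = e(r₁ r₂^(p-1))` is good, all its orders are divisible by `p`
(D2 = `dvd_ordAt_sub_of_dvd_ord`), ROOT (`H751.exists_pow_eq_UHP`), and `V ∘ γ = ζ_γ V`.
-/

set_option autoImplicit false

noncomputable section

open ModularCurve HahnSeries UpperHalfPlane CongruenceSubgroup AlgebraicCurve
open scoped MatrixGroups Manifold
open Fermat.Agent.S24 Fermat.Agent.S24.H997 Fermat.Agent.S24.H648 Fermat.Agent.S24.H708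
open Fermat.Agent.S24.H624
open Fermat.Agent.S29 Fermat.Agent.S29.M4b Fermat.Agent.S29.M4b.H822

namespace Fermat.Agent.S29.H402

/-- arithmetic: `p ∣ a - b` (in `ℤ`) gives `a + (p - 1) b = p m` in `ℕ` -/
theorem exists_mul_of_dvd_sub {p a b : ℕ} (hp : p ≠ 0) (h : (p : ℤ) ∣ (a : ℤ) - (b : ℤ)) :
    ∃ m : ℕ, a + (p - 1) * b = p * m := by
  have h1 : (p : ℤ) ∣ ((a + (p - 1) * b : ℕ) : ℤ) := by
    have hp1 : 1 ≤ p := Nat.one_le_iff_ne_zero.mpr hp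
    have : ((a + (p - 1) * b : ℕ) : ℤ) = ((a : ℤ) - b) + p * b := by
      push_cast [Nat.cast_sub hp1]
      ring
    rw [this]
    exact dvd_add h (dvd_mul_right _ _)
  have h2 : p ∣ a + (p - 1) * b := Int.natCast_dvd_natCast.mp h1
  exact h2

/-- the character of a holomorphic `p`-th root of a `Γ₀(N)`-invariant function -/
theorem exists_char_of_pow_invariant (N : ℕ) (p : ℕ) [NeZero p] {V : ℍ → ℂ}
    (hV : MDifferentiable 𝓘(ℂ) 𝓘(ℂ) V) (hne : ∃ τ, V τ ≠ 0)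
    (hinv : ∀ (γ : G0 N) (τ : ℍ), V ((γ : SL(2, ℤ)) • τ) ^ p = V τ ^ p) :
    ∃ c : G0 N → ZMod p, (∀ γ γ' : G0 N, c (γ * γ') = c γ + c γ') ∧ HasChar N p c V := by
  classical
  have hp : p ≠ 0 := NeZero.ne p
  obtain ⟨τ₀, hτ₀⟩ := hne
  have key : ∀ γ : G0 N, ∃ k : ZMod p, ∀ τ, V ((γ : SL(2, ℤ)) • τ) = zetaP p ^ k.val * V τ := by
    intro γ
    set ζ : ℂ := V ((γ : SL(2, ℤ)) • τ₀) / V τ₀ with hζ
    have hζp : ζ ^ p = 1 := by
      rw [hζ, div_pow, hinv γ τ₀, div_self (pow_ne_zero p hτ₀)]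
    obtain ⟨k, hk, hkζ⟩ := (isPrimitiveRoot_zetaP p).eq_pow_of_pow_eq_one hζp
    refine ⟨(k : ZMod p), fun τ => ?_⟩
    have hval : ((k : ZMod p)).val = k := ZMod.val_natCast_of_lt hk
    rw [hval, hkζ]
    have hfun : (fun τ => V ((γ : SL(2, ℤ)) • τ)) = fun τ => ζ * V τ := by
      refine Fermat.Agent.S29.H751.eq_of_pow_eq_UHP (precompSL (γ : SL(2, ℤ)) ⟨V, hV⟩).2
        ((mdifferentiable_const (c := ζ)).mul hV) hp (fun τ => ?_) (τ₀ := τ₀) ?_ ?_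
      · rw [hinv γ τ, mul_pow, hζp, one_mul]
      · rw [hζ]
        field_simp
      · intro h0
        have h1 := hinv γ τ₀
        rw [h0, zero_pow hp] at h1
        exact pow_ne_zero p hτ₀ h1.symm
    exact congrFun hfun τ
  choose c hc using key
  refine ⟨c, fun γ γ' => ?_, fun γ τ => hc γ τ⟩
  have h1 : V (((γ * γ' : G0 N) : SL(2, ℤ)) • τ₀) = zetaP p ^ (c (γ * γ')).val * V τ₀ :=
    hc (γ * γ') τ₀
  have h2 : V (((γ * γ' : G0 N) : SL(2, ℤ)) • τ₀)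
      = zetaP p ^ (c γ).val * (zetaP p ^ (c γ').val * V τ₀) := by
    rw [Subgroup.coe_mul, mul_smul, hc γ, hc γ']
  rw [h1, ← mul_assoc, ← zetaP_pow_val_add] at h2
  have h3 : zetaP p ^ (c (γ * γ')).val = zetaP p ^ (c γ + c γ').val :=
    mul_right_cancel₀ hτ₀ h2
  exact ZMod.val_injective p
    ((isPrimitiveRoot_zetaP p).pow_inj (ZMod.val_lt _) (ZMod.val_lt _) h3)

variable (N : ℕ) [NeZero N] (p : ℕ) [NeZero p]

/-- **DFROM over `ℂ`.**  A function of `F_ℂ` whose divisor is divisible by `p` is, up to a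
`p`-th power, the `q`-expansion of the `p`-th power of a twisted holomorphic function. -/
theorem exists_isTwisted_of_dvd_ord {f : FFK ℂ N} (hf : f ≠ 0)
    (hdiv : ∀ w : Place ℂ (FFK ℂ N), (p : ℤ) ∣ w.ord f) :
    ∃ (s : FFK ℂ N) (V : ℍ → ℂ) (c : G0 N → ZMod p), s ≠ 0 ∧
      (∀ γ γ' : G0 N, c (γ * γ') = c γ + c γ') ∧ IsTwisted N p c V ∧
      qexpFun 1 (fun τ => V τ ^ p) = ((f * s ^ p : FFK ℂ N) : LaurentSeries ℂ) := by
  classical
  have hp : p ≠ 0 := NeZero.ne p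
  obtain ⟨r1, r2, hr2, hfr⟩ := exists_div_inclRNK ℂ N f
  have hincl2 : inclRNK ℂ N r2 ≠ 0 := fun h =>
    hr2 (inclRNK_injective ℂ N (by rw [h, map_zero]))
  have hfr' : f * inclRNK ℂ N r2 = inclRNK ℂ N r1 := by
    rw [hfr, div_mul_cancel₀ _ hincl2]
  have hr1 : r1 ≠ 0 := by
    intro h0
    rw [h0, map_zero] at hfr'
    exact (mul_ne_zero hf hincl2) hfr'
  -- the good functions
  set e := bridgeK (RingHom.id ℂ) (holBase N) with he
  set G1 : ℍ → ℂ := ((e r1 : (holBase N).Hol) : ℍ → ℂ) with hG1def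
  set G2 : ℍ → ℂ := ((e r2 : (holBase N).Hol) : ℍ → ℂ) with hG2def
  have hG1 : G1 ∈ goodRing N := bridgeK_mem_goodRing (RingHom.id ℂ) r1
  have hG2 : G2 ∈ goodRing N := bridgeK_mem_goodRing (RingHom.id ℂ) r2
  have hq1 : HasQExp 1 G1 (r1 : LaurentSeries ℂ) := by
    have := hasQExp_bridgeK (RingHom.id ℂ) r1
    rwa [coeffMap_id] at this
  have hq2 : HasQExp 1 G2 (r2 : LaurentSeries ℂ) := by
    have := hasQExp_bridgeK (RingHom.id ℂ) r2
    rwa [coeffMap_id] at this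
  have hG10 : G1 ≠ 0 := fun h0 => hr1 (Subtype.ext (hq1.eq_zero_iff.mpr h0))
  have hG20 : G2 ≠ 0 := fun h0 => hr2 (Subtype.ext (hq2.eq_zero_iff.mpr h0))
  set G : ℍ → ℂ := G1 * G2 ^ (p - 1) with hGdef
  have hG : G ∈ goodRing N := (goodRing N).mul_mem hG1 ((goodRing N).pow_mem hG2 _)
  have hqG : HasQExp 1 G ((r1 : LaurentSeries ℂ) * (r2 : LaurentSeries ℂ) ^ (p - 1)) :=
    hq1.mul (hq2.pow _)
  -- orders
  have hord : ∀ τ : ℍ, ∃ m : ℕ,
      analyticOrderAt (G ∘ ofComplex) (τ : ℂ) = ((p * m : ℕ) : ℕ∞) := by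
    intro τ
    have hD2 := dvd_ordAt_sub_of_dvd_ord N (RingHom.id ℂ) p hf hr2 hfr' hdiv τ
      ⟨Fermat.Agent.S20.L1.jFun τ, rfl⟩
    obtain ⟨n1, hn1⟩ := ENat.ne_top_iff_exists.mp (ordAt_ne_top hG1.1 hG10 τ)
    obtain ⟨n2, hn2⟩ := ENat.ne_top_iff_exists.mp (ordAt_ne_top hG2.1 hG20 τ)
    have ho1 : ordZ N τ (e r1) = (n1 : ℤ) := by
      show (((ordAt τ G1).toNat : ℕ) : ℤ) = n1
      rw [← hn1]; simp
    have ho2 : ordZ N τ (e r2) = (n2 : ℤ) := by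
      show (((ordAt τ G2).toNat : ℕ) : ℤ) = n2
      rw [← hn2]; simp
    rw [ho1, ho2] at hD2
    obtain ⟨m, hm⟩ := exists_mul_of_dvd_sub hp hD2
    refine ⟨m, ?_⟩
    rw [← ordAt_def, hGdef, ordAt_mul hG1.1 (hG2.1.pow _)]
    have hpow : ordAt τ (G2 ^ (p - 1)) = (p - 1) • ordAt τ G2 := by
      rw [ordAt_def, ordAt_def]
      have : (G2 ^ (p - 1)) ∘ ofComplex = (G2 ∘ ofComplex) ^ (p - 1) := rfl
      rw [this, analyticOrderAt_pow (analyticAt_of_mdiff hG2.1 τ)]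
    rw [hpow, ← hn1, ← hn2, ← hm]
    push_cast
    simp [nsmul_eq_mul]
  -- the root
  obtain ⟨V, hVm, hVp⟩ := Fermat.Agent.S29.H751.exists_pow_eq_UHP hG.1 p hp hord
  have hG0 : G ≠ 0 := by
    intro h0
    have h1 : (r1 : LaurentSeries ℂ) * (r2 : LaurentSeries ℂ) ^ (p - 1) = 0 :=
      hqG.eq_zero_iff.mpr h0
    have hr1' : (r1 : LaurentSeries ℂ) ≠ 0 := fun h => hr1 (Subtype.ext h)
    have hr2' : (r2 : LaurentSeries ℂ) ≠ 0 := fun h => hr2 (Subtype.ext h)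
    exact mul_ne_zero hr1' (pow_ne_zero _ hr2') h1
  have hVne : ∃ τ, V τ ≠ 0 := by
    by_contra hcon
    push Not at hcon
    apply hG0
    funext τ
    rw [← hVp, hcon, zero_pow hp]
    rfl
  have hVpow : (fun τ => V τ ^ p) = G := funext hVp
  obtain ⟨c, hcadd, hchar⟩ := exists_char_of_pow_invariant N p hVm hVne (fun γ τ => by
    rw [hVp, hVp]; exact hG.2.1 γ γ.2 τ)
  refine ⟨inclRNK ℂ N r2, V, c, hincl2, hcadd, ⟨hVm, hVne, hchar, ?_⟩, ?_⟩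
  · rw [hVpow]; exact hG
  · rw [hVpow, hqG.qexpFun_eq]
    have h1 : f * inclRNK ℂ N r2 ^ p = inclRNK ℂ N r1 * inclRNK ℂ N r2 ^ (p - 1) := by
      have : inclRNK ℂ N r2 ^ p = inclRNK ℂ N r2 * inclRNK ℂ N r2 ^ (p - 1) := by
        rw [← pow_succ', Nat.sub_add_cancel (Nat.one_le_iff_ne_zero.mpr hp)]
      rw [this, ← mul_assoc, hfr']
    rw [h1]
    rfl

end Fermat.Agent.S29.H402
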