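import Fermat.Agent.S29.H402.DictRoot
import Fermat.Agent.S29.H282.K2Ana

/-!
# S29 / M4b DICT (helper402) — adapter between `bridgeK` (S24 `holN`, `q^{1/N}`-expansions) and the
`goodRing` / `H708.HasQExp 1` language of `M4b/Defs.lean`

* `mem_holN_of_mem_goodRing` : a good function lies in `holN N`;
* `qexp_eq_of_hasQExp` : its `holBase`-expansion is `qExpand N` of its `q`-expansion;
* `bridgeK_mem_goodRing`, `hasQExp_bridgeK` : for `r ∈ K[j(q^d)]`, the function `e r = bridgeK ι r`
  is good with `q`-expansion `ι r`.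
-/

set_option autoImplicit false

noncomputable section

open ModularCurve HahnSeries UpperHalfPlane CongruenceSubgroup
open scoped MatrixGroups Manifold
open Fermat.Agent.S24 Fermat.Agent.S24.H997 Fermat.Agent.S24.H648 Fermat.Agent.S24.H708
open Fermat.Agent.S29 Fermat.Agent.S29.M4b

namespace Fermat.Agent.S29.H402

variable {N : ℕ} [NeZero N]

theorem isParHom_zero_zmod_one : IsParHom (0 : G0 N → ZMod 1) :=
  ⟨fun _ _ => by simp, fun _ _ => rfl, fun _ _ _ _ => rfl⟩

/-- A good function lies in the S24 ring `holN N`. -/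
theorem mem_holN_of_mem_goodRing {G : ℍ → ℂ} (hG : G ∈ goodRing N) : G ∈ holN N := by
  by_cases h0 : G = 0
  · rw [h0]; exact (holN N).zero_mem
  · have hne : ∃ τ, G τ ≠ 0 := by
      by_contra hcon
      push Not at hcon
      exact h0 (funext hcon)
    have hT : IsTwisted N 1 (0 : G0 N → ZMod 1) G :=
      { mdiff := hG.1
        ne_zero := hne
        hasChar := fun γ τ => by
          rw [hG.2.1 γ γ.2 τ]
          simp
        pow_mem := by
          have : (fun τ => G τ ^ 1) = G := by funext τ; simp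
          rw [this]; exact hG }
    exact Fermat.Agent.S29.H282.mem_holN_of_isTwisted isParHom_zero_zmod_one hT

/-- the `holBase`-expansion (in `q^{1/N}`) of a function with a `q`-expansion -/
theorem qexp_eq_of_hasQExp {G : ℍ → ℂ} (hG : G ∈ holN N) {φ : LaurentSeries ℂ}
    (h : HasQExp 1 G φ) : (holBase N).qexp ⟨G, hG⟩ = qExpand ℂ N φ :=
  (expInf_spec (holToExp N ⟨G, hG⟩)).unique (Fermat.Agent.S29.H282.infExp_level_of_hasQExp h)

variable {K : Type*} [Field K] [Algebra ℚ K] (ι : K →+* ℂ)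

theorem RNK_eq_AK : RNK K N = Deg457.AK K N := rfl

/-- a good function with `q`-expansion `ι r` is `e r` -/
theorem bridgeK_eq_of_hasQExp (r : RNK K N) {G : ℍ → ℂ} (hG : G ∈ goodRing N)
    (h : HasQExp 1 G (coeffMap ι (r : LaurentSeries K))) :
    ((bridgeK ι (holBase N) r : (holBase N).Hol) : ℍ → ℂ) = G := by
  have hGh : G ∈ holN N := mem_holN_of_mem_goodRing hG
  have h1 : bridgeK ι (holBase N) r = ⟨G, hGh⟩ := by
    apply (holBase N).qexp_injective
    rw [qexp_bridgeK, qexp_eq_of_hasQExp hGh h]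
    rfl
  rw [h1]

theorem exists_good_bridgeK (r : RNK K N) :
    ((bridgeK ι (holBase N) r : (holBase N).Hol) : ℍ → ℂ) ∈ goodRing N ∧
      HasQExp 1 ((bridgeK ι (holBase N) r : (holBase N).Hol) : ℍ → ℂ)
        (coeffMap ι (r : LaurentSeries K)) := by
  have hr : coeffMap ι (r : LaurentSeries K) ∈ Deg457.AK ℂ N :=
    Deg457.coeffMap_mem_AK ι r.2
  obtain ⟨G, hG, hq⟩ := Fermat.Agent.S29.H882.AK_le_goodQ N hr
  rw [bridgeK_eq_of_hasQExp ι r hG hq]
  exact ⟨hG, hq⟩

theorem bridgeK_mem_goodRing (r : RNK K N) :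
    ((bridgeK ι (holBase N) r : (holBase N).Hol) : ℍ → ℂ) ∈ goodRing N :=
  (exists_good_bridgeK ι r).1

theorem hasQExp_bridgeK (r : RNK K N) :
    HasQExp 1 ((bridgeK ι (holBase N) r : (holBase N).Hol) : ℍ → ℂ)
      (coeffMap ι (r : LaurentSeries K)) :=
  (exists_good_bridgeK ι r).2

end Fermat.Agent.S29.H402
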