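import Fermat.Agent.S29.H402.DictPlaces

/-!
# S29 / M4b-K2 DICT (helper402) — part 7: analytic `p`-th roots give `p`-divisible divisors

**Theorem `dvd_ord_of_analytic_root` (K2).**  Let `K` be algebraically closed with `ι : K →+* ℂ`,
`f ∈ K(X₀(N))ˣ`, `f = r₁ / r₂` with `rᵢ ∈ K[j(q^d) : d ∣ N]`, and suppose the analytic avatar of `f`
is a `p`-th power: `e(r₁) · V^p = e(r₂) · U^p` with `U, V ∈ holN N`, `V ≠ 0`, where `h = U / V` is
invariant under every `δ ∈ Γ₀(N)` which is of finite order (`δ¹² = 1`) or of trace `2`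
(stabilisers of points of `ℍ` and of cusps).  Then `p ∣ ord_v f` for EVERY place `v` of `K(X₀(N))/K`.
-/

set_option autoImplicit false

noncomputable section

open ModularCurve HahnSeries UpperHalfPlane Polynomial IntermediateField AlgebraicCurve
open scoped MatrixGroups
open Fermat.Agent.S24 Fermat.Agent.S24.H997 Fermat.Agent.S24.H624 Fermat.Agent.S24.H117
  Fermat.Agent.S24.H324

namespace Fermat.Agent.S29.H402

/-! ### Stabiliser-like elements -/

/-- `δ` is of finite order dividing `12`, or of trace `2`. -/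
def StabLike (δ : SL(2, ℤ)) : Prop :=
  δ ^ 12 = 1 ∨ (δ : Matrix (Fin 2) (Fin 2) ℤ).trace = 2

theorem S_pow_four : (ModularGroup.S : SL(2, ℤ)) ^ 4 = 1 := by
  have h2 : (ModularGroup.S : SL(2, ℤ)) * ModularGroup.S = -1 := by
    apply Subtype.ext
    simp only [Matrix.SpecialLinearGroup.coe_mul, ModularGroup.coe_S,
      Matrix.SpecialLinearGroup.coe_neg, Matrix.SpecialLinearGroup.coe_one]
    ext i j
    fin_cases i <;> fin_cases j <;> simp [Matrix.mul_apply, Fin.sum_univ_two]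
  rw [show (4 : ℕ) = 2 + 2 from rfl, _root_.pow_add, pow_two, h2]
  simp

theorem ST_pow_six : (ModularGroup.S * ModularGroup.T : SL(2, ℤ)) ^ 6 = 1 := by
  have h3 : (ModularGroup.S * ModularGroup.T : SL(2, ℤ)) ^ 3 = -1 := by
    rw [pow_succ, pow_two]
    apply Subtype.ext
    simp only [Matrix.SpecialLinearGroup.coe_mul, ModularGroup.coe_S, ModularGroup.coe_T,
      Matrix.SpecialLinearGroup.coe_neg, Matrix.SpecialLinearGroup.coe_one]
    ext i j
    fin_cases i <;> fin_cases j <;> simp [Matrix.mul_apply, Fin.sum_univ_two]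
  rw [show (6 : ℕ) = 3 + 3 from rfl, _root_.pow_add, h3]
  simp

theorem conj_pow (g ε : SL(2, ℤ)) (n : ℕ) : (g⁻¹ * ε * g) ^ n = g⁻¹ * ε ^ n * g := by
  induction n with
  | zero => simp
  | succ n ih => rw [pow_succ, ih, pow_succ]; group

theorem stabLike_conj_of_pow_twelve {ε : SL(2, ℤ)} (hε : ε ^ 12 = 1) (g : SL(2, ℤ)) (e : ℕ) :
    StabLike (g⁻¹ * ε ^ e * g) := by
  left
  rw [conj_pow, ← pow_mul, mul_comm, pow_mul, hε, one_pow]
  group

theorem trace_conj (g A : SL(2, ℤ)) :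
    ((g⁻¹ * A * g : SL(2, ℤ)) : Matrix (Fin 2) (Fin 2) ℤ).trace
      = (A : Matrix (Fin 2) (Fin 2) ℤ).trace := by
  rw [Matrix.SpecialLinearGroup.coe_mul, Matrix.trace_mul_comm,
    ← Matrix.SpecialLinearGroup.coe_mul, mul_inv_cancel_left]

theorem trace_T_pow (e : ℕ) :
    ((ModularGroup.T ^ e : SL(2, ℤ)) : Matrix (Fin 2) (Fin 2) ℤ).trace = 2 := by
  have := ModularGroup.coe_T_zpow (e : ℤ)
  rw [zpow_natCast] at this
  rw [this, Matrix.trace_fin_two]
  simp

theorem stabLike_conj_T (g : SL(2, ℤ)) (e : ℕ) : StabLike (g⁻¹ * ModularGroup.T ^ e * g) :=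
  Or.inr (by rw [trace_conj, trace_T_pow])

theorem stabLike_conj_ptData (N : ℕ) [NeZero N] (a : ℂ) (g : SL(2, ℤ)) (e : ℕ) :
    StabLike (g⁻¹ * (ptData N a).ε ^ e * g) := by
  apply stabLike_conj_of_pow_twelve
  rcases (ptData N a).hcases with h | h | h
  · rw [h, one_pow]
  · rw [h, show (12 : ℕ) = 4 * 3 from rfl, pow_mul, S_pow_four, one_pow]
  · rw [h, show (12 : ℕ) = 6 * 2 from rfl, pow_mul, ST_pow_six, one_pow]

/-! ### The expansion of `(U / V) ∘ g⁻¹` -/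

variable {N : ℕ} [NeZero N]
variable {K : Type*} [Field K] [Algebra ℚ K] (ι : K →+* ℂ)
variable (B : HolBase N) (X : Expansion B)

/-- the expansion of `(U / V) ∘ g⁻¹` -/
def Wexp (U V : B.Hol) (g : SL(2, ℤ)) : LaurentSeries ℂ :=
  X.E (B.compH g⁻¹ U) / X.E (B.compH g⁻¹ V)

variable {B X}

theorem E_compH_ne_zero {V : B.Hol} (hV : V ≠ 0) (g : SL(2, ℤ)) : X.E (B.compH g V) ≠ 0 := by
  intro h
  apply hV
  apply B.compH_injective g
  apply X.inj
  rw [h, map_zero, map_zero]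

theorem Wexp_ne_zero {U V : B.Hol} (hU : U ≠ 0) (hV : V ≠ 0) (g : SL(2, ℤ)) :
    Wexp B X U V g ≠ 0 :=
  div_ne_zero (E_compH_ne_zero hU _) (E_compH_ne_zero hV _)

/-- (a) the embedding of `f` is the `p`-th power of the expansion of `U / V`. -/
theorem sigmaGK_eq_Wexp_pow (p : ℕ) {f : FFK K N} {r1 r2 : RNK K N} (hr2 : r2 ≠ 0)
    (hfr : f * inclRNK K N r2 = inclRNK K N r1) {U V : B.Hol} (hV : V ≠ 0)
    (hUV : bridgeK ι B r1 * V ^ p = bridgeK ι B r2 * U ^ p) (g : SL(2, ℤ)) :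
    sigmaGK ι B X g f = (Wexp B X U V g) ^ p := by
  have h1 := congrArg (sigmaGK ι B X g) hfr
  rw [map_mul, sigmaGK_inclRNK, sigmaGK_inclRNK] at h1
  have h2 := congrArg (fun h => X.E (B.compH g⁻¹ h)) hUV
  simp only [map_mul, map_pow] at h2
  have hb2 : X.E (B.compH g⁻¹ (bridgeK ι B r2)) ≠ 0 :=
    E_compH_ne_zero (fun h => hr2 (bridgeK_injective ι B (by rw [h, map_zero]))) _
  have hV' : X.E (B.compH g⁻¹ V) ≠ 0 := E_compH_ne_zero hV _
  rw [Wexp, div_pow, eq_div_iff (pow_ne_zero p hV')]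
  apply mul_right_cancel₀ hb2
  calc sigmaGK ι B X g f * X.E (B.compH g⁻¹ V) ^ p * X.E (B.compH g⁻¹ (bridgeK ι B r2))
      = (sigmaGK ι B X g f * X.E (B.compH g⁻¹ (bridgeK ι B r2))) * X.E (B.compH g⁻¹ V) ^ p := by
        ring
    _ = X.E (B.compH g⁻¹ U) ^ p * X.E (B.compH g⁻¹ (bridgeK ι B r2)) := by
        rw [h1, h2]; ring

/-- (b) rotation relation for the expansions of `U / V`. -/
theorem rotRel_Wexp {ε : SL(2, ℤ)} (R : RotData B X ε) (U V : B.Hol) (g : SL(2, ℤ)) :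
    RotRel R.ζ (Wexp B X U V g) (Wexp B X U V (ε⁻¹ * g)) := by
  have hζ : R.ζ ≠ 0 := R.hζ.ne_zero R.m_pos.ne'
  have key : ∀ h : B.Hol, RotRel R.ζ (X.E (B.compH g⁻¹ h)) (X.E (B.compH (ε⁻¹ * g)⁻¹ h)) := by
    intro h
    rw [mul_inv_rev, inv_inv, HolBase.compH_mul]
    exact R.rot _
  exact (key U).div hζ (key V)

/-- (c) iterated rotation relation. -/
theorem rotRel_Wexp_iterate {ε : SL(2, ℤ)} (R : RotData B X ε) (U V : B.Hol) (g : SL(2, ℤ))
    (i : ℕ) :
    (Wexp B X U V ((ε⁻¹) ^ i * g)).order = (Wexp B X U V g).order ∧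
      (Wexp B X U V ((ε⁻¹) ^ i * g)).leadingCoeff
        = (R.ζ ^ (Wexp B X U V g).order) ^ i * (Wexp B X U V g).leadingCoeff := by
  induction i with
  | zero => simp
  | succ n ih =>
    have h := rotRel_Wexp R U V ((ε⁻¹) ^ n * g)
    rw [← mul_assoc, ← pow_succ'] at h
    refine ⟨by rw [h.1, ih.1], ?_⟩
    rw [h.2, ih.1, ih.2, pow_succ]
    ring

/-- (d) invariance under `δ` gives equality of the expansions at `g` and `g * δ⁻¹`. -/
theorem Wexp_mul_inv {U V : B.Hol} (hV : V ≠ 0) {δ : SL(2, ℤ)}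
    (hδ : B.compH δ U * V = U * B.compH δ V) (g : SL(2, ℤ)) :
    Wexp B X U V (g * δ⁻¹) = Wexp B X U V g := by
  have h := congrArg (fun h => X.E (B.compH g⁻¹ h)) hδ
  simp only [map_mul] at h
  rw [← HolBase.compH_mul, ← HolBase.compH_mul] at h
  have e1 : (g * δ⁻¹)⁻¹ = δ * g⁻¹ := by group
  rw [Wexp, Wexp, e1, div_eq_div_iff (E_compH_ne_zero hV _) (E_compH_ne_zero hV _)]
  exact h

/-! ### The local statement -/

theorem permOf_pow_apply (N : ℕ) [NeZero N] (h : SL(2, ℤ)) (e : ℕ) (g : SL(2, ℤ)) :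
    (permOf N h ^ e) (g : XX N) = ((h ^ e * g : SL(2, ℤ)) : XX N) := by
  induction e with
  | zero => simp
  | succ n ih =>
    rw [pow_succ', Equiv.Perm.mul_apply, ih, pow_succ', mul_assoc]
    rfl

theorem order_pow_laurent (a : LaurentSeries ℂ) (p : ℕ) : (a ^ p).order = p * a.order :=
  eord_pow (RingHom.id (LaurentSeries ℂ)) a p

variable (B X)

/-- **Local K2.**  For a `LocalData` built from an expansion with rotation data. -/
theorem dvd_ord_placeOf_mkLocalDataK {ε : SL(2, ℤ)} (R : RotData B X ε) (t : FFK K N)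
    (u : LaurentSeries ℂ) (ht : ∀ g : SL(2, ℤ), sigmaGK ι B X g t = u) (hu : u.order = (R.m : ℤ))
    [IsAlgClosed K]
    [FiniteDimensional ↥(IntermediateField.adjoin K {t}) (FFK K N)]
    (hrank : Module.finrank ↥(IntermediateField.adjoin K {t}) (FFK K N) = Nat.card (XX N))
    (hstab : ∀ (g : SL(2, ℤ)) (e : ℕ), StabLike (g⁻¹ * ε ^ e * g))
    (p : ℕ) {f : FFK K N} (hf : f ≠ 0) {r1 r2 : RNK K N} (hr2 : r2 ≠ 0)
    (hfr : f * inclRNK K N r2 = inclRNK K N r1) {U V : B.Hol} (hV : V ≠ 0)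
    (hUV : bridgeK ι B r1 * V ^ p = bridgeK ι B r2 * U ^ p)
    (hinv : ∀ δ ∈ CongruenceSubgroup.Gamma0 N, StabLike δ →
      B.compH δ U * V = U * B.compH δ V)
    (x : XX N) :
    (p : ℤ) ∣ (placeOf (mkLocalDataK ι B X ε R t u ht hu) x).ord f := by
  classical
  have hincl2 : inclRNK K N r2 ≠ 0 := fun h =>
    hr2 (inclRNK_injective K N (by rw [h, map_zero]))
  -- the case `p = 0`
  by_cases hp : p = 0
  · subst hp
    rw [pow_zero, pow_zero, mul_one, mul_one] at hUV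
    have h12 : r1 = r2 := bridgeK_injective ι B hUV
    rw [h12] at hfr
    have hf1 : f = 1 := by
      have := mul_right_cancel₀ hincl2 (hfr.trans (one_mul _).symm)
      exact this
    rw [hf1, Place.ord_one]
    exact dvd_zero _
  set L := mkLocalDataK ι B X ε R t u ht hu with hL
  obtain ⟨g, rfl⟩ := QuotientGroup.mk_surjective x
  -- `U ≠ 0`
  have hr1 : r1 ≠ 0 := by
    rintro rfl
    rw [map_zero] at hfr
    rcases mul_eq_zero.mp hfr with h | h
    · exact hf h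
    · exact hincl2 h
  have hb1 : bridgeK ι B r1 ≠ 0 := fun h => hr1 (bridgeK_injective ι B (by rw [h, map_zero]))
  have hU : U ≠ 0 := by
    rintro rfl
    rw [zero_pow hp, mul_zero] at hUV
    have hX : X.E (bridgeK ι B r1 * V ^ p) = 0 := by rw [hUV, map_zero]
    rw [map_mul, map_pow] at hX
    rcases mul_eq_zero.mp hX with h | h
    · exact hb1 (X.inj (by rw [h, map_zero]))
    · exact hV (X.inj (by rw [pow_eq_zero_iff hp |>.mp h, map_zero]))
  -- the orbit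
  obtain ⟨e, he0, heq, hperm⟩ := perm_pow_ord_apply N L hrank ((g : SL(2, ℤ)) : XX N)
  have hperm' : (((ε⁻¹) ^ e * g : SL(2, ℤ)) : XX N) = ((g : SL(2, ℤ)) : XX N) := by
    rw [← permOf_pow_apply]
    exact hperm
  have hmem' : g⁻¹ * ((ε⁻¹) ^ e * g) ∈ CongruenceSubgroup.Gamma0 N :=
    QuotientGroup.eq.mp hperm'.symm
  set δ : SL(2, ℤ) := g⁻¹ * ε ^ e * g with hδ
  have hδinv : δ⁻¹ = g⁻¹ * ((ε⁻¹) ^ e * g) := by
    rw [hδ, inv_pow]; group
  have hδmem : δ ∈ CongruenceSubgroup.Gamma0 N := by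
    have := inv_mem hmem'
    rwa [← hδinv, inv_inv] at this
  have hW : Wexp B X U V ((ε⁻¹) ^ e * g) = Wexp B X U V g := by
    have h := Wexp_mul_inv (X := X) hV (hinv δ hδmem (hstab g e)) g
    rw [hδinv, mul_inv_cancel_left] at h
    exact h
  -- the root of unity
  set n := (Wexp B X U V g).order with hn
  have hlc : (Wexp B X U V g).leadingCoeff ≠ 0 :=
    HahnSeries.leadingCoeff_ne_zero.mpr (Wexp_ne_zero hU hV g)
  have hit := (rotRel_Wexp_iterate R U V g e).2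
  rw [hW] at hit
  have hζ1 : (R.ζ ^ n) ^ e = 1 := by
    have : (R.ζ ^ n) ^ e * (Wexp B X U V g).leadingCoeff
        = 1 * (Wexp B X U V g).leadingCoeff := by rw [one_mul]; exact hit.symm
    exact mul_right_cancel₀ hlc this
  have hdvd : (R.m : ℤ) ∣ n * e := by
    rw [← zpow_natCast, ← zpow_mul] at hζ1
    exact (R.hζ.zpow_eq_one_iff_dvd _).mp hζ1
  have hmm : (mult L ((g : SL(2, ℤ)) : XX N) : ℤ) * (e : ℤ) = (R.m : ℤ) := by
    rw [heq]
    exact mult_mul_ord_t L _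
  have he0' : (e : ℤ) ≠ 0 := by exact_mod_cast he0.ne'
  have hmult : (mult L ((g : SL(2, ℤ)) : XX N) : ℤ) ∣ n := by
    rw [← hmm] at hdvd
    exact (mul_dvd_mul_iff_right he0').mp hdvd
  -- orders
  have hord := order_eq L ((g : SL(2, ℤ)) : XX N) f
  have hσ : L.σ ((g : SL(2, ℤ)) : XX N) f = (Wexp B X U V g) ^ p := by
    show sigmaXK ι B X ((g : SL(2, ℤ)) : XX N) f = _
    rw [sigmaXK_mk]
    exact sigmaGK_eq_Wexp_pow ι p hr2 hfr hV hUV g
  rw [hσ, order_pow_laurent, ← hn] at hord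
  obtain ⟨n', hn'⟩ := hmult
  have hk : (mult L ((g : SL(2, ℤ)) : XX N) : ℤ) ≠ 0 := by
    exact_mod_cast (mult_pos L _).ne'
  refine ⟨n', ?_⟩
  apply mul_left_cancel₀ hk
  rw [← hord, hn']
  ring

end Fermat.Agent.S29.H402
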