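import Fermat.Agent.S29.H402.DictKummer
import Fermat.Agent.S24.M7.H347Adapter

/-!
# S29 / M4b-K2 DICT (helper402) — main theorems

`K` algebraically closed, `ι : K →+* ℂ`, `B = holBase N` (S24's ring `holN N` of holomorphic
functions on `ℍ` with `q^{1/N}`-expansions at all cusps), `e = bridgeK ι B : K[j(q^d)] → holN N`.

* `dvd_ord_of_analytic_root` (**D1 = K2**): if `f = r₁/r₂` and `e r₁ · V^p = e r₂ · U^p`
  (`f^an = (U/V)^p`) with `U/V` invariant under all stabiliser-like `δ ∈ Γ₀(N)`, then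
  `p ∣ ord_v f` for every place `v` of `K(X₀(N))`.
* `dvd_ordAt_sub_of_dvd_ord` (**D2**): if `p ∣ ord_v f` for every place `v`, then at every `τ ∈ ℍ`
  with `j(τ) ∈ ι(K)`, `p ∣ ord_τ (e r₁) - ord_τ (e r₂)`  (input of the ROOT lemma).
-/

set_option autoImplicit false

noncomputable section

open ModularCurve HahnSeries UpperHalfPlane Polynomial IntermediateField AlgebraicCurve
open scoped MatrixGroups
open Fermat.Agent.S24 Fermat.Agent.S24.H997 Fermat.Agent.S24.H624 Fermat.Agent.S24.H117
  Fermat.Agent.S24.H324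

namespace Fermat.Agent.S29.H402

variable (N : ℕ) [NeZero N]
variable {K : Type*} [Field K] [Algebra ℚ K] [IsAlgClosed K] (ι : K →+* ℂ)

/-- **D1 (= K2).**  An analytic `p`-th root with trivial characters on stabilisers forces
`p ∣ ord_v f` at every place `v`. -/
theorem dvd_ord_of_analytic_root (p : ℕ) {f : FFK K N} (hf : f ≠ 0) {r1 r2 : RNK K N}
    (hr2 : r2 ≠ 0) (hfr : f * inclRNK K N r2 = inclRNK K N r1) {U V : (holBase N).Hol}
    (hV : V ≠ 0)
    (hUV : bridgeK ι (holBase N) r1 * V ^ p = bridgeK ι (holBase N) r2 * U ^ p)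
    (hinv : ∀ δ ∈ CongruenceSubgroup.Gamma0 N, StabLike δ →
      (holBase N).compH δ U * V = U * (holBase N).compH δ V)
    (v : Place K (FFK K N)) : (p : ℤ) ∣ v.ord f := by
  rcases place_cases N ι v with ⟨a, ha⟩ | hinf
  · obtain ⟨x, rfl⟩ := exists_placeOf_dataFinK N ι a v ha
    haveI := finiteDimensional_sub_const N ι a
    exact dvd_ord_placeOf_mkLocalDataK ι (holBase N) (expAt N (ι a)) (ptData N (ι a)).R _ _
      (fun g => sigmaGK_sub' N ι a g) (ptData N (ι a)).order_J (finrank_sub_const N ι a)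
      (stabLike_conj_ptData N (ι a)) p hf hr2 hfr hV hUV hinv x
  · obtain ⟨x, rfl⟩ := exists_placeOf_dataInfK N ι v hinf
    haveI := finiteDimensional_inv N ι
    have ht : ∀ g : SL(2, ℤ), sigmaGK ι (holBase N) (holBase N).qexpExpansion g (jFK K N)⁻¹
        = ((holBase N).qexp ((holBase N).JH 1 (one_dvd N)))⁻¹ := fun g => by
      rw [map_inv₀, sigmaGK_jFK]; rfl
    have hu : (((holBase N).qexp ((holBase N).JH 1 (one_dvd N)))⁻¹).order
        = (((analyticCore N).infRot).m : ℤ) := by
      rw [RotRel.order_inv' (holBase N).qexp_J_one_ne_zero, (holBase N).order_qexp_J_one, neg_neg]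
      rfl
    exact dvd_ord_placeOf_mkLocalDataK ι (holBase N) (holBase N).qexpExpansion
      (analyticCore N).infRot (jFK K N)⁻¹ _ ht hu (finrank_inv N ι)
      stabLike_conj_T p hf hr2 hfr hV hUV hinv x

end Fermat.Agent.S29.H402
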