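import Fermat.Agent.S29.H402.DictPoint
import Fermat.Agent.S24.H324.FundIneq
import Fermat.Agent.S24.FFDegree

/-!
# S29 / M4b-K2 DICT (helper402) — part 6: every place of `K(X₀(N))` is analytic

`K` algebraically closed of characteristic `0` with a ring hom `ι : K →+* ℂ` (e.g. `K = ℂ`, `ι = id`,
or `K = ℚ̄`).  Every place `v` of `FFK K N = K(j(q^d) : d ∣ N)` lies over a point `a : K` of the
`j`-line or over `∞`, and is induced by one of the embeddings `σ_x : FFK K N → ℂ((z))`,
`x ∈ SL₂(ℤ)/Γ₀(N)` (Taylor expansion at the base point of `f ∘ g⁻¹`, resp. `q^{1/N}`-expansion).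
-/

set_option autoImplicit false

noncomputable section

open ModularCurve HahnSeries UpperHalfPlane Polynomial IntermediateField AlgebraicCurve
open scoped MatrixGroups
open Fermat.Agent.S24 Fermat.Agent.S24.H997 Fermat.Agent.S24.H624 Fermat.Agent.S24.H117
  Fermat.Agent.S24.H324

namespace Fermat.Agent.S29.H402

variable (N : ℕ) [NeZero N]
variable {K : Type*} [Field K] [Algebra ℚ K] [IsAlgClosed K] (ι : K →+* ℂ)

instance instFiniteXX : Finite (XX N) := inferInstance

include ι in
theorem finrank_sub_const (a : K) :
    Module.finrank ↥(IntermediateField.adjoin K {jFK K N - algebraMap K (FFK K N) a}) (FFK K N)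
      = Nat.card (XX N) := by
  rw [FF.finrank_adjoin_sub_const]
  exact finrank_jFK N ι

include ι in
theorem finrank_inv :
    Module.finrank ↥(IntermediateField.adjoin K {(jFK K N)⁻¹}) (FFK K N) = Nat.card (XX N) := by
  rw [FF.finrank_adjoin_inv]
  exact finrank_jFK N ι

include ι in
theorem finiteDimensional_sub_const (a : K) :
    FiniteDimensional ↥(IntermediateField.adjoin K {jFK K N - algebraMap K (FFK K N) a})
      (FFK K N) :=
  haveI := finiteDimensional_jFK N ι
  FF.finiteDimensional_adjoin_sub_const _ a

include ι in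
theorem finiteDimensional_inv :
    FiniteDimensional ↥(IntermediateField.adjoin K {(jFK K N)⁻¹}) (FFK K N) :=
  haveI := finiteDimensional_jFK N ι
  FF.finiteDimensional_adjoin_inv _

/-- **Every place over a finite point is analytic.** -/
theorem exists_placeOf_dataFinK (a : K) (v : Place K (FFK K N))
    (hv : 0 < v.ord (jFK K N - algebraMap K (FFK K N) a)) :
    ∃ x : XX N, placeOf (dataFinK N ι a) x = v := by
  haveI : CharZero K := algebraRat.charZero K
  haveI := finiteDimensional_sub_const N ι a
  exact exists_placeOf_eq (dataFinK N ι a) _ le_rfl (finrank_sub_const N ι a) v hv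

/-- **Every place over `∞` is analytic.** -/
theorem exists_placeOf_dataInfK (v : Place K (FFK K N)) (hv : 0 < v.ord (jFK K N)⁻¹) :
    ∃ x : XX N, placeOf (dataInfK' N ι) x = v := by
  haveI : CharZero K := algebraRat.charZero K
  haveI := finiteDimensional_inv N ι
  exact exists_placeOf_eq (dataInfK' N ι) _ le_rfl (finrank_inv N ι) v hv

include ι in
/-- Every place lies over a finite point of the `j`-line or over `∞`. -/
theorem place_cases (v : Place K (FFK K N)) :
    (∃ a : K, 0 < v.ord (jFK K N - algebraMap K (FFK K N) a)) ∨ 0 < v.ord (jFK K N)⁻¹ := by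
  by_cases h : 0 ≤ v.ord (jFK K N)
  · left
    haveI := finiteDimensional_jFK N ι
    haveI : Algebra.IsAlgebraic ↥(IntermediateField.adjoin K {jFK K N}) (FFK K N) :=
      Algebra.IsAlgebraic.of_finite _ _
    exact FF.exists_ord_sub_pos v (jFK K N) h
  · right
    rw [Place.ord_inv]
    omega

/-- the orbit of `x` under the monodromy permutation has `ord_v t` elements, and its
`ord_v t`-th power fixes `x` -/
theorem perm_pow_ord_apply {t : FFK K N} (L : LocalData K (FFK K N) ℂ (XX N) t)
    [FiniteDimensional ↥(IntermediateField.adjoin K {t}) (FFK K N)]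
    (hrank : Module.finrank ↥(IntermediateField.adjoin K {t}) (FFK K N) = Nat.card (XX N))
    (x : XX N) :
    ∃ e : ℕ, 0 < e ∧ (e : ℤ) = (placeOf L x).ord t ∧ (L.perm ^ e) x = x := by
  classical
  haveI : CharZero K := algebraRat.charZero K
  have hfin : {v : Place K (FFK K N) | 0 < v.ord t}.Finite :=
    finite_places_over L K⟮t⟯ le_rfl hrank
  set s := hfin.toFinset with hs
  have hmem : ∀ v, v ∈ s ↔ 0 < v.ord t := fun v => by
    rw [hs, Set.Finite.mem_toFinset]; rfl
  obtain ⟨-, h2, -⟩ := localThm L K⟮t⟯ le_rfl hrank s hmem (card_le_sum_ord L s hmem)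
  refine ⟨Nat.card (MulAction.orbit (Subgroup.zpowers L.perm) x), ?_, h2 x, ?_⟩
  · have := ord_t_pos L x
    have h := h2 x
    omega
  · haveI : Fintype (MulAction.orbit (Subgroup.zpowers L.perm) x) := Fintype.ofFinite _
    rw [Nat.card_eq_fintype_card, ← MulAction.minimalPeriod_eq_card]
    have := MulAction.pow_period_smul L.perm x
    rw [MulAction.period_eq_minimalPeriod] at this
    exact this

end Fermat.Agent.S29.H402
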