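import Fermat.Agent.S29.H402.DictCore
import Fermat.Agent.S24.Mod.H997HolBase
import Fermat.Agent.S20.JInjL1

/-!
# S29 / M4b-K2 DICT (helper402) — part 5: explicit base points

For every `a : ℂ` a bundle `ptData N a` consisting of a base point `τ₀ : ℍ` with `j τ₀ = a`
(`ρ` for `a = 0`, `i` for `a = 1728`), a stabilising element `ε ∈ {1, S, S*T}`, the rotation data of
the Taylor expansion at `τ₀`, and the resulting `LocalData` of `FFK K N / K(j)` over every `a : K`
(`dataFinK`) and over `∞` (`dataInfK'`).
-/

set_option autoImplicit false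

noncomputable section

open ModularCurve HahnSeries UpperHalfPlane Polynomial IntermediateField
open scoped MatrixGroups
open Fermat.Agent.S24 Fermat.Agent.S24.H997 Fermat.Agent.S24.H624 Fermat.Agent.S20.L1
  Fermat.Agent.S24.M7.H47

namespace Fermat.Agent.S29.H402

variable (N : ℕ) [NeZero N]

/-- Point data with an explicit base point. -/
structure PtData (a : ℂ) where
  /-- the base point -/
  τ₀ : ℍ
  hτ₀ : jFun τ₀ = a
  /-- the stabilising element -/
  ε : SL(2, ℤ)
  hε : ε • τ₀ = τ₀
  hcases : ε = 1 ∨ ε = ModularGroup.S ∨ ε = ModularGroup.S * ModularGroup.T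
  /-- rotation data -/
  R : RotData (holBase N) ((holBase N).taylorExpansion (holBase_isHolo N) τ₀) ε
  order_J : (((holBase N).taylorExpansion (holBase_isHolo N) τ₀).E
      ((holBase N).JH 1 (one_dvd N) - (holBase N).constH a)).order = (R.m : ℤ)

/-- the point data over `a : ℂ` -/
def ptData (a : ℂ) : PtData N a :=
  letI := Classical.propDecidable
  if h0 : a = 0 then
    { τ₀ := rho
      hτ₀ := by rw [h0]; exact jFun_rho
      ε := ModularGroup.S * ModularGroup.T
      hε := ST_smul_rho
      hcases := Or.inr (Or.inr rfl)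
      R := ((holBase N).point0 (holBase_isHolo N)).R
      order_J := by subst h0; exact ((holBase N).point0 (holBase_isHolo N)).order_J }
  else if h1 : a = 1728 then
    { τ₀ := UpperHalfPlane.I
      hτ₀ := by rw [h1]; exact jFun_I
      ε := ModularGroup.S
      hε := Fermat.Agent.S24.H624.S_smul_I
      hcases := Or.inr (Or.inl rfl)
      R := ((holBase N).point1728 (holBase_isHolo N)).R
      order_J := by subst h1; exact ((holBase N).point1728 (holBase_isHolo N)).order_J }
  else
    { τ₀ := (jFun_surjective a).choose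
      hτ₀ := (jFun_surjective a).choose_spec
      ε := 1
      hε := one_smul _ _
      hcases := Or.inl rfl
      R := (holBase N).trivialRot _
      order_J := ((holBase N).genericPoint (holBase_isHolo N) a h0 h1).order_J }

variable {K : Type*} [Field K] [Algebra ℚ K] (ι : K →+* ℂ)

/-- the Taylor expansion at the base point over `a` -/
def expAt (a : ℂ) : Expansion (holBase N) :=
  (holBase N).taylorExpansion (holBase_isHolo N) (ptData N a).τ₀

theorem sigmaGK_sub' (a : K) (g : SL(2, ℤ)) :
    sigmaGK ι (holBase N) (expAt N (ι a)) g (jFK K N - algebraMap K (FFK K N) a)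
      = (expAt N (ι a)).E ((holBase N).JH 1 (one_dvd N) - (holBase N).constH (ι a)) := by
  rw [map_sub, sigmaGK_jFK, sigmaGK_algebraMap, map_sub, (expAt N (ι a)).const]

/-- the local data over a finite point `a : K` -/
def dataFinK (a : K) : LocalData K (FFK K N) ℂ (XX N) (jFK K N - algebraMap K (FFK K N) a) :=
  mkLocalDataK ι (holBase N) (expAt N (ι a)) (ptData N (ι a)).ε (ptData N (ι a)).R _ _
    (fun g => sigmaGK_sub' N ι a g) (ptData N (ι a)).order_J

@[simp] theorem dataFinK_perm (a : K) :
    (dataFinK N ι a).perm = permOf N (ptData N (ι a)).ε⁻¹ := rfl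

@[simp] theorem dataFinK_σ (a : K) :
    (dataFinK N ι a).σ = sigmaXK ι (holBase N) (expAt N (ι a)) := rfl

@[simp] theorem dataFinK_m (a : K) : (dataFinK N ι a).m = (ptData N (ι a)).R.m := rfl

@[simp] theorem dataFinK_ζ (a : K) : (dataFinK N ι a).ζ = (ptData N (ι a)).R.ζ := rfl

/-- the local data over `∞` -/
def dataInfK' : LocalData K (FFK K N) ℂ (XX N) (jFK K N)⁻¹ := dataInfK ι (analyticCore N)

@[simp] theorem dataInfK'_perm : (dataInfK' (K := K) N ι).perm = permOf N ModularGroup.T⁻¹ := rfl

@[simp] theorem dataInfK'_σ :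
    (dataInfK' (K := K) N ι).σ = sigmaXK ι (holBase N) (holBase N).qexpExpansion := rfl

@[simp] theorem dataInfK'_m : (dataInfK' (K := K) N ι).m = N := rfl

include ι in
/-- the degree of `FFK K N` over `K(j)` is the index of `Γ₀(N)` -/
theorem finrank_jFK : Module.finrank ↥(IntermediateField.adjoin K {jFK K N}) (FFK K N)
    = Nat.card (XX N) :=
  finrank_eq_K ι (analyticCore N)

include ι in
theorem finiteDimensional_jFK :
    FiniteDimensional ↥(IntermediateField.adjoin K {jFK K N}) (FFK K N) :=
  (degree_fields_K K ι N).1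

end Fermat.Agent.S29.H402
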