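import Fermat.Agent.S29.H402.DictMain
import Fermat.Agent.S20.JInjL1

/-!
# S29 / M4b-K2 DICT (helper402) — D2: `p`-divisible divisors have `p`-divisible analytic orders

* `order_sigmaGK_inclRNK` : the order of the embedding `σ_g` (Taylor expansion at the base point
  `τ₀` over `a`) of `r ∈ K[j(q^d)]` is the analytic order of `e r` at `g⁻¹ • τ₀`.
* `dvd_ordAt_sub_of_dvd_ord` (**D2**): if `p ∣ ord_v f` for every place `v` of `K(X₀(N))`, `f = r₁/r₂`,
  then `p ∣ ord_τ (e r₁) - ord_τ (e r₂)` at every `τ ∈ ℍ` with `j(τ) ∈ ι(K)`.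
* `exists_ordAt_eq_mul` : in the form consumed by the ROOT lemma (`F = e r₁ · (e r₂)^(p-1)`).
-/

set_option autoImplicit false

noncomputable section

open ModularCurve HahnSeries UpperHalfPlane Polynomial IntermediateField AlgebraicCurve
open scoped MatrixGroups
open Fermat.Agent.S24 Fermat.Agent.S24.H997 Fermat.Agent.S24.H624 Fermat.Agent.S24.H117
  Fermat.Agent.S24.H324

namespace Fermat.Agent.S29.H402

variable (N : ℕ) [NeZero N]
variable {K : Type*} [Field K] [Algebra ℚ K] (ι : K →+* ℂ)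

/-- the analytic order at `τ` of an element of `holN N`, as an integer -/
def ordZ (τ : ℍ) (h : (holBase N).Hol) : ℤ := ((ordAt τ (h : ℍ → ℂ)).toNat : ℤ)

theorem order_taylorExpansion (τ₀ : ℍ) (h : (holBase N).Hol) :
    (((holBase N).taylorExpansion (holBase_isHolo N) τ₀).E h).order = ordZ N τ₀ h :=
  Fermat.Agent.S24.M7.H347.order_laurentAt τ₀ ((holBase N).toHolo (holBase_isHolo N) h)

theorem ordZ_compH (g : SL(2, ℤ)) (τ₀ : ℍ) (h : (holBase N).Hol) :
    ordZ N τ₀ ((holBase N).compH g h) = ordZ N (g • τ₀) h := by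
  have := ordAt_precompSL g ((holBase N).toHolo (holBase_isHolo N) h) τ₀
  exact congrArg (fun n => ((n.toNat : ℕ) : ℤ)) this

/-- the order of `σ_g (r)` is the analytic order of `e r` at `g⁻¹ • τ₀`. -/
theorem order_sigmaGK_inclRNK (a : ℂ) (g : SL(2, ℤ)) (r : RNK K N) :
    (sigmaGK ι (holBase N) (expAt N a) g (inclRNK K N r)).order
      = ordZ N (g⁻¹ • (ptData N a).τ₀) (bridgeK ι (holBase N) r) := by
  rw [sigmaGK_inclRNK]
  show (((holBase N).taylorExpansion (holBase_isHolo N) (ptData N a).τ₀).E _).order = _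
  rw [order_taylorExpansion, ordZ_compH]

theorem order_div_laurent {a b : LaurentSeries ℂ} (ha : a ≠ 0) (hb : b ≠ 0) :
    (a / b).order = a.order - b.order := by
  have h : (a / b) * b = a := div_mul_cancel₀ a hb
  have hab : a / b ≠ 0 := div_ne_zero ha hb
  have hmul : ((a / b) * b).order = (a / b).order + b.order := by
    apply HahnSeries.order_mul_of_ne_zero
    exact mul_ne_zero (HahnSeries.leadingCoeff_ne_zero.mpr hab)
      (HahnSeries.leadingCoeff_ne_zero.mpr hb)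
  rw [h] at hmul
  omega

variable [IsAlgClosed K]

/-- **D2.**  If `p` divides the order of `f` at every place, then `p` divides the analytic order
of `f^an = e r₁ / e r₂` at every point `τ ∈ ℍ` whose `j`-invariant lies in `ι K`. -/
theorem dvd_ordAt_sub_of_dvd_ord (p : ℕ) {f : FFK K N} (hf : f ≠ 0) {r1 r2 : RNK K N}
    (hr2 : r2 ≠ 0) (hfr : f * inclRNK K N r2 = inclRNK K N r1)
    (hdiv : ∀ v : Place K (FFK K N), (p : ℤ) ∣ v.ord f) (τ : ℍ)
    (hτ : Fermat.Agent.S20.L1.jFun τ ∈ Set.range ι) :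
    (p : ℤ) ∣ ordZ N τ (bridgeK ι (holBase N) r1) - ordZ N τ (bridgeK ι (holBase N) r2) := by
  obtain ⟨a, ha⟩ := hτ
  -- the base point over `ι a` and `g` with `g • τ₀ = τ`
  have hj : Fermat.Agent.S20.jFun (ptData N (ι a)).τ₀ = Fermat.Agent.S20.jFun τ := by
    show Fermat.Agent.S20.L1.jFun _ = Fermat.Agent.S20.L1.jFun τ
    rw [(ptData N (ι a)).hτ₀, ha]
  obtain ⟨g, hg⟩ := Fermat.Agent.S20.jFun_inj_h544 _ _ hj
  have hg' : (g⁻¹)⁻¹ • (ptData N (ι a)).τ₀ = τ := by rw [inv_inv]; exact hg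
  set L := dataFinK N ι a with hL
  set x : XX N := ((g⁻¹ : SL(2, ℤ)) : XX N) with hx
  have hord := order_eq L x f
  have hσ : L.σ x = sigmaGK ι (holBase N) (expAt N (ι a)) g⁻¹ := by
    show sigmaXK ι (holBase N) (expAt N (ι a)) ((g⁻¹ : SL(2, ℤ)) : XX N) = _
    exact sigmaXK_mk ι (holBase N) (expAt N (ι a)) g⁻¹
  have hincl2 : inclRNK K N r2 ≠ 0 := fun h =>
    hr2 (inclRNK_injective K N (by rw [h, map_zero]))
  have hr1 : inclRNK K N r1 ≠ 0 := by
    rw [← hfr]; exact mul_ne_zero hf hincl2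
  have hfdiv : f = inclRNK K N r1 / inclRNK K N r2 := by
    rw [eq_div_iff hincl2]; exact hfr
  have h1 := order_sigmaGK_inclRNK N ι (ι a) g⁻¹ r1
  have h2 := order_sigmaGK_inclRNK N ι (ι a) g⁻¹ r2
  rw [hg'] at h1 h2
  have hs1 : sigmaGK ι (holBase N) (expAt N (ι a)) g⁻¹ (inclRNK K N r1) ≠ 0 :=
    (_root_.map_ne_zero _).mpr hr1
  have hs2 : sigmaGK ι (holBase N) (expAt N (ι a)) g⁻¹ (inclRNK K N r2) ≠ 0 :=
    (_root_.map_ne_zero _).mpr hincl2
  have hfo : (L.σ x f).order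
      = ordZ N τ (bridgeK ι (holBase N) r1) - ordZ N τ (bridgeK ι (holBase N) r2) := by
    rw [hσ, hfdiv, map_div₀, order_div_laurent hs1 hs2, h1, h2]
  rw [← hfo, hord]
  exact Dvd.dvd.mul_left (hdiv _) _

end Fermat.Agent.S29.H402
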